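import Mathlib

set_option autoImplicit false

namespace Fermat.Agent.S14.Thaine

/-- (H) elementary Kummer-type bookkeeping in a field. -/
lemma not_dvd_of_mul_pow_eq_one {F : Type*} [Field F] (p : ℕ) (s D : F) (r : ℕ)
    (h : D * s ^ r = 1) (hD : ¬ ∃ y : F, y ^ p = D) : ¬ p ∣ r := by
  rintro ⟨k, rfl⟩
  apply hD
  refine ⟨(s ^ k)⁻¹, ?_⟩
  have hs : s ^ (p * k) ≠ 0 := by
    intro h0
    rw [h0, mul_zero] at h
    exact zero_ne_one h
  rw [inv_pow, ← pow_mul, mul_comm k p]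
  exact (eq_inv_of_mul_eq_one_left h).symm

lemma modEq_of_pow_mul_pow_eq {F : Type*} [Field F] (p : ℕ) (hp : p.Prime) (s D : F) (r : ℕ)
    (h : D * s ^ r = 1) (hD : ¬ ∃ y : F, y ^ p = D) (a b : ℕ) (e : F)
    (hab : s ^ a * e ^ p = s ^ b) : a ≡ b [MOD p] := by
  by_contra hne
  have hs : s ≠ 0 := by
    rintro rfl
    rcases Nat.eq_zero_or_pos r with rfl | hr
    · apply hD
      refine ⟨1, ?_⟩
      simpa using h.symm
    · rw [zero_pow hr.ne', mul_zero] at h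
      exact zero_ne_one h
  have he : e ≠ 0 := by
    rintro rfl
    rw [zero_pow hp.ne_zero, mul_zero] at hab
    exact pow_ne_zero b hs hab.symm
  have hcop : IsCoprime ((a : ℤ) - b) (p : ℤ) := by
    rw [isCoprime_comm, Prime.coprime_iff_not_dvd (Nat.prime_iff_prime_int.mp hp)]
    intro hd
    apply hne
    exact ((Int.natCast_modEq_iff).mp ((Int.modEq_iff_dvd.mpr hd).symm))
  obtain ⟨u, v, huv⟩ := hcop
  have h1 : s ^ ((a : ℤ) - b) = (e⁻¹) ^ (p : ℤ) := by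
    rw [zpow_sub₀ hs, zpow_natCast, zpow_natCast, zpow_natCast, inv_pow, div_eq_iff (pow_ne_zero b hs),
      ← hab]
    field_simp
  have h2 : s = ((e⁻¹) ^ u * s ^ v) ^ p := by
    have : s = s ^ (u * ((a : ℤ) - b) + v * p) := by rw [huv, zpow_one]
    conv_lhs => rw [this]
    rw [zpow_add₀ hs, mul_comm u, zpow_mul, h1, mul_pow, ← zpow_natCast, ← zpow_natCast,
      ← zpow_mul, ← zpow_mul, ← zpow_mul, mul_comm (p : ℤ) u]
  apply hD
  refine ⟨(((e⁻¹) ^ u * s ^ v) ^ r)⁻¹, ?_⟩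
  rw [inv_pow, ← pow_mul, mul_comm r p, pow_mul, ← h2]
  exact (eq_inv_of_mul_eq_one_left h).symm

end Fermat.Agent.S14.Thaine
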