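import Fermat.Agent.S14.Thaine.Xi

set_option autoImplicit false
set_option linter.unusedSectionVars false

open NumberField IsCyclotomicExtension Polynomial

namespace Fermat.Agent.S14.Thaine

variable (p : ℕ) [Fact p.Prime] (K : Type) [Field K] [NumberField K]
  [IsCyclotomicExtension {p} ℚ K]
variable (l : ℕ) [Fact l.Prime]

section
variable (M : Type) [Field M] [NumberField M] [Algebra K M] [IsCyclotomicExtension {l} K M]

include p in
lemma isCyclic_gal (hne : l ≠ p) : IsCyclic Gal(M/K) := by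
  have e := IsCyclotomicExtension.autEquivPow M (irreducible_cyclotomic p K l M hne)
  exact isCyclic_of_surjective e.symm e.symm.surjective

lemma galRestrict_eq_smul (g : Gal(M/K)) (x : 𝓞 M) :
    galRestrict (𝓞 K) K M (𝓞 M) g x = g • x := by
  ext
  exact algebraMap_galRestrict_apply (𝓞 K) g x

include p M in
theorem exists_kappa_aux (hne : l ≠ p) (hpl : p ∣ l - 1) :
    ∃ (κ : 𝓞 K) (s : ℕ), κ ≠ 0 ∧
      (∀ q : Ideal (𝓞 K), q.IsPrime → q ≠ ⊥ → (l : 𝓞 K) ∉ q → p ∣ cnt q (Ideal.span {κ})) ∧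
      (∀ q : Ideal (𝓞 K), q.IsPrime → q ≠ ⊥ → (l : 𝓞 K) ∈ q →
        (Du p K : 𝓞 K) * (s : 𝓞 K) ^ cnt q (Ideal.span {κ}) - 1 ∈ q) := by
  have hlp : l.Prime := Fact.out
  have := isCyclotomicExtension_mul p K l M hne
  have : IsGalois K M := IsCyclotomicExtension.isGalois {l} K M
  have := isCyclic_gal p K l M hne
  obtain ⟨g, hg⟩ := IsCyclic.exists_generator (α := Gal(M/K))
  obtain ⟨ε, hε, h⟩ := groupCohomology.exists_mul_galRestrict_of_norm_eq_one (A := 𝓞 K) (B := 𝓞 M) hg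
    (η := ((xi p K l M hne hpl : (𝓞 M)ˣ) : 𝓞 M)) (norm_xi p K l M hne hpl)
  rw [galRestrict_eq_smul] at h
  obtain ⟨s, hs⟩ := exists_smul_zl K l M g
  refine ⟨RingOfIntegers.norm K ε, s, ?_, ?_, ?_⟩
  · intro h0
    have h1 : Algebra.norm K (ε : M) = 0 := by
      rw [← RingOfIntegers.coe_norm, h0]; rfl
    rw [Algebra.norm_eq_zero_iff] at h1
    exact hε (RingOfIntegers.ext h1)
  · intro q hq hq0 hlq
    obtain ⟨⟨Q, hQp, hQl⟩⟩ := q.nonempty_primesOver (S := 𝓞 M)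
    have hQ : Q ≠ ⊥ := Ideal.ne_bot_of_liesOver_of_ne_bot hq0 Q
    have h1 := cnt_norm p K l M hne g hg _ ε hε h q hq0 Q
    have h2 : (l : 𝓞 M) ∉ Q := by rwa [← natCast_mem_iff K M q Q]
    have h3 := ramificationIdx_of_not_mem p K l M Q hQ h2
    rw [← Ideal.over_def Q q] at h3
    rw [h3, one_mul] at h1
    rw [h1]
    exact Dvd.dvd.mul_right hpl _
  · intro q hq hq0 hlq
    obtain ⟨⟨Q, hQp, hQl⟩⟩ := q.nonempty_primesOver (S := 𝓞 M)
    have hQ : Q ≠ ⊥ := Ideal.ne_bot_of_liesOver_of_ne_bot hq0 Q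
    have h1 := cnt_norm p K l M hne g hg _ ε hε h q hq0 Q
    have h2 : (l : 𝓞 M) ∈ Q := by rwa [← natCast_mem_iff K M q Q]
    have h3 := ramificationIdx_of_mem p K l M hne Q hQ h2
    rw [← ramIdx'_eq K M Q hQ, ← Ideal.over_def Q q] at h3
    rw [h3] at h1
    have h4 : cnt q (Ideal.span {RingOfIntegers.norm K ε}) = cnt Q (Ideal.span {ε}) := by
      have h5 : 0 < l - 1 := by have := hlp.two_le; omega
      exact Nat.eq_of_mul_eq_mul_left h5 h1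
    have h6 := local_at_l p K l M hne Q hQ h2 g s hs _ ε hε h
    have h7 := xi_sub_Du_mem p K l M hne hpl Q (zl_sub_one_mem p K l M hne Q hQ h2).1
    rw [h4, Ideal.mem_of_liesOver Q q]
    simp only [map_sub, map_mul, map_pow, map_natCast, map_one]
    have e : algebraMap (𝓞 K) (𝓞 M) (Du p K : 𝓞 K) * (s : 𝓞 M) ^ cnt Q (Ideal.span {ε}) - 1 =
        (((xi p K l M hne hpl : (𝓞 M)ˣ) : 𝓞 M) * (s : 𝓞 M) ^ cnt Q (Ideal.span {ε}) - 1) -
        (((xi p K l M hne hpl : (𝓞 M)ˣ) : 𝓞 M) - algebraMap (𝓞 K) (𝓞 M) (Du p K : 𝓞 K)) *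
          (s : 𝓞 M) ^ cnt Q (Ideal.span {ε}) := by ring
    rw [e]
    exact Ideal.sub_mem _ h6 (Ideal.mul_mem_right _ _ h7)

end

theorem exists_kappa (hne : l ≠ p) (hpl : p ∣ l - 1) :
    ∃ (κ : 𝓞 K) (s : ℕ), κ ≠ 0 ∧
      (∀ q : Ideal (𝓞 K), q.IsPrime → q ≠ ⊥ → (l : 𝓞 K) ∉ q → p ∣ cnt q (Ideal.span {κ})) ∧
      (∀ q : Ideal (𝓞 K), q.IsPrime → q ≠ ⊥ → (l : 𝓞 K) ∈ q →
        (Du p K : 𝓞 K) * (s : 𝓞 K) ^ cnt q (Ideal.span {κ}) - 1 ∈ q) :=
  exists_kappa_aux p K l (CyclotomicField l K) hne hpl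

end Fermat.Agent.S14.Thaine
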