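import Fermat.Agent.S14.Thaine.Ram

set_option autoImplicit false
set_option linter.unusedSectionVars false

open NumberField IsCyclotomicExtension Polynomial
open scoped Pointwise

namespace Fermat.Agent.S14.Thaine

variable (p : ℕ) [Fact p.Prime] (K : Type) [Field K] [NumberField K]
  [IsCyclotomicExtension {p} ℚ K]
variable (l : ℕ) [Fact l.Prime]

lemma liesOver_of_mem {F : Type} [Field F] [NumberField F] (q : Ideal (𝓞 F)) [q.IsPrime]
    (hq : q ≠ ⊥) (hl : (l : 𝓞 F) ∈ q) : q.LiesOver (Ideal.span {(l : ℤ)}) := by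
  have hlp : l.Prime := Fact.out
  obtain ⟨r, hr, hQr, hmem⟩ := exists_prime_liesOver q hq
  have hrl : r = l := (Nat.prime_dvd_prime_iff_eq hr hlp).mp ((hmem l).mp hl)
  subst hrl
  exact hQr

lemma ne_bot_of_absNorm (q : Ideal (𝓞 K)) (hN : Ideal.absNorm q = l) : q ≠ ⊥ := by
  have hlp : l.Prime := Fact.out
  rintro rfl
  rw [Ideal.absNorm_bot] at hN
  exact hlp.ne_zero hN.symm

lemma l_mem_of_absNorm (q : Ideal (𝓞 K)) (hN : Ideal.absNorm q = l) : (l : 𝓞 K) ∈ q := by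
  rw [← hN]; exact Ideal.absNorm_mem q

include p in
/-- a degree one prime `≠ p` has norm `≡ 1 mod p`. -/
lemma natCast_eq_one (hne : l ≠ p) (q : Ideal (𝓞 K)) [q.IsPrime] (hN : Ideal.absNorm q = l) :
    (l : ZMod p) = 1 := by
  have hp : p.Prime := Fact.out
  have hlp : l.Prime := Fact.out
  have := liesOver_of_mem l q (ne_bot_of_absNorm K l q hN) (l_mem_of_absNorm K l q hN)
  have h1 := Ideal.pow_inertiaDeg l q
  rw [hN] at h1
  have h2 : q.inertiaDeg ℤ = 1 := by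
    have : l ^ q.inertiaDeg ℤ = l ^ 1 := by rw [h1, pow_one]
    exact Nat.pow_right_injective hlp.two_le this
  have hlp' : ¬ l ∣ p := fun h => hne ((Nat.prime_dvd_prime_iff_eq hlp hp).mp h)
  have : NeZero p := ⟨hp.ne_zero⟩
  rw [IsCyclotomicExtension.Rat.inertiaDeg_eq_of_not_dvd (m := p) l K q hlp'] at h2
  exact orderOf_eq_one_iff.mp h2

include K in
lemma dvd_sub_one (hne : l ≠ p) (q : Ideal (𝓞 K)) [q.IsPrime] (hN : Ideal.absNorm q = l) :
    p ∣ l - 1 := by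
  have hlp : l.Prime := Fact.out
  have h := natCast_eq_one p K l hne q hN
  rw [← (ZMod.natCast_eq_zero_iff (l - 1) p), Nat.cast_sub hlp.one_le, h]
  simp

/-- `l` splits completely: trivial decomposition group. -/
lemma stabilizer_eq_bot (hne : l ≠ p) (q : Ideal (𝓞 K)) [q.IsPrime] (hN : Ideal.absNorm q = l) :
    MulAction.stabilizer Gal(K/ℚ) q = ⊥ := by
  have hp : p.Prime := Fact.out
  have hlp : l.Prime := Fact.out
  have : IsGalois ℚ K := IsCyclotomicExtension.isGalois {p} ℚ K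
  have := IsGaloisGroup.of_isFractionRing Gal(K/ℚ) ℤ (𝓞 K) ℚ K
  have := liesOver_of_mem l q (ne_bot_of_absNorm K l q hN) (l_mem_of_absNorm K l q hN)
  have hlp' : ¬ l ∣ p := fun h => hne ((Nat.prime_dvd_prime_iff_eq hlp hp).mp h)
  have : NeZero p := ⟨hp.ne_zero⟩
  have h1 := Ideal.card_stabilizer_eq (G := Gal(K/ℚ)) (Ideal.span {(l : ℤ)}) q
  rw [IsCyclotomicExtension.Rat.ramificationIdxIn_eq_of_not_dvd l K hlp',
    IsCyclotomicExtension.Rat.inertiaDegIn_eq_of_not_dvd l K hlp',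
    natCast_eq_one p K l hne q hN, orderOf_one] at h1
  exact Subgroup.eq_bot_of_card_eq _ h1

include p in
lemma exists_smul_eq (q q' : Ideal (𝓞 K)) [q.IsPrime] [q'.IsPrime] (hq : q ≠ ⊥) (hq' : q' ≠ ⊥)
    (hl : (l : 𝓞 K) ∈ q) (hl' : (l : 𝓞 K) ∈ q') : ∃ σ : Gal(K/ℚ), σ • q = q' := by
  have : IsGalois ℚ K := IsCyclotomicExtension.isGalois {p} ℚ K
  have := IsGaloisGroup.of_isFractionRing Gal(K/ℚ) ℤ (𝓞 K) ℚ K
  have := liesOver_of_mem l q hq hl
  have := liesOver_of_mem l q' hq' hl'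
  exact Ideal.exists_smul_eq_of_isGaloisGroup (Ideal.span {(l : ℤ)}) q q' Gal(K/ℚ)

end Fermat.Agent.S14.Thaine
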