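import Mathlib

set_option autoImplicit false

open UniqueFactorizationMonoid

namespace Fermat.Agent.S14.Thaine

variable {A : Type*} [CommRing A] [IsDedekindDomain A]

open Classical in
/-- exponent of `q` in the factorisation of `I` -/
noncomputable def cnt (q I : Ideal A) : ℕ := (normalizedFactors I).count q

lemma cnt_mul (q : Ideal A) {I J : Ideal A} (hI : I ≠ ⊥) (hJ : J ≠ ⊥) :
    cnt q (I * J) = cnt q I + cnt q J := by
  classical
  unfold cnt
  rw [normalizedFactors_mul hI hJ, Multiset.count_add]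

lemma cnt_pow (q I : Ideal A) (n : ℕ) : cnt q (I ^ n) = n * cnt q I := by
  classical
  unfold cnt
  rw [normalizedFactors_pow, Multiset.count_nsmul]

lemma cnt_one (q : Ideal A) : cnt q (1 : Ideal A) = 0 := by
  classical
  unfold cnt
  rw [normalizedFactors_one, Multiset.count_zero]

lemma cnt_prime (q q' : Ideal A) [q'.IsPrime] (hq' : q' ≠ ⊥) :
    cnt q q' = if q = q' then 1 else 0 := by
  classical
  unfold cnt
  rw [normalizedFactors_irreducible (Ideal.prime_of_isPrime hq' inferInstance).irreducible,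
    normalize_eq, Multiset.count_singleton]

lemma cnt_prod {ι : Type*} (q : Ideal A) (s : Finset ι) (f : ι → Ideal A)
    (hf : ∀ i ∈ s, f i ≠ ⊥) : cnt q (∏ i ∈ s, f i) = ∑ i ∈ s, cnt q (f i) := by
  classical
  induction s using Finset.induction_on with
  | empty => rw [Finset.prod_empty, Finset.sum_empty, cnt_one]
  | insert a s ha ih =>
    rw [Finset.prod_insert ha, Finset.sum_insert ha, cnt_mul, ih]
    · intro i hi; exact hf i (Finset.mem_insert_of_mem hi)
    · exact hf a (Finset.mem_insert_self _ _)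
    · rw [← Ideal.zero_eq_bot, Finset.prod_ne_zero_iff]
      intro i hi; exact hf i (Finset.mem_insert_of_mem hi)

lemma cnt_eq_of_mem (q : Ideal A) [q.IsPrime] {x : A} {n : ℕ} (h1 : x ∈ q ^ n)
    (h2 : x ∉ q ^ (n + 1)) : cnt q (Ideal.span {x}) = n := by
  classical
  unfold cnt
  apply Ideal.count_normalizedFactors_eq
  · rwa [Ideal.span_singleton_le_iff_mem]
  · rwa [Ideal.span_singleton_le_iff_mem]

lemma mem_pow_cnt (q : Ideal A) [q.IsPrime] (hq : q ≠ ⊥) {x : A} (hx : x ≠ 0) :
    x ∈ q ^ cnt q (Ideal.span {x}) ∧ x ∉ q ^ (cnt q (Ideal.span {x}) + 1) := by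
  classical
  have hx' : Ideal.span {x} ≠ 0 := by simpa using hx
  have hirr := (Ideal.prime_of_isPrime hq inferInstance).irreducible
  have h := emultiplicity_eq_count_normalizedFactors hirr hx'
  rw [normalize_eq] at h
  have h' : emultiplicity q (Ideal.span {x}) = (cnt q (Ideal.span {x}) : ℕ) := h
  rw [emultiplicity_eq_coe] at h'
  simpa [Ideal.dvd_span_singleton] using h'

lemma cnt_eq_zero_of_not_mem (q : Ideal A) [q.IsPrime] {x : A} (h : x ∉ q) :
    cnt q (Ideal.span {x}) = 0 :=
  cnt_eq_of_mem q (by simp) (by simpa using h)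

/-- behaviour under extension of Dedekind domains -/
lemma cnt_map {B : Type*} [CommRing B] [IsDedekindDomain B] [Algebra A B] [FaithfulSMul A B]
    (q : Ideal A) [q.IsPrime] (hq : q ≠ ⊥) (Q : Ideal B) [Q.IsPrime] (hQ : Q ≠ ⊥) [Q.LiesOver q]
    {I : Ideal A} (hI : I ≠ ⊥) :
    cnt Q (I.map (algebraMap A B)) = q.ramificationIdx' Q * cnt q I := by
  classical
  have hq' := (Ideal.prime_of_isPrime hq inferInstance).irreducible
  have hQ' := (Ideal.prime_of_isPrime hQ inferInstance).irreducible
  have h := Ideal.IsDedekindDomain.emultiplicity_map_eq_ramificationIdx'_mul hI hq' hQ' hQ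
  have hI' : I.map (algebraMap A B) ≠ ⊥ := Ideal.map_ne_bot_of_ne_bot hI
  rw [emultiplicity_eq_count_normalizedFactors hQ' hI',
    emultiplicity_eq_count_normalizedFactors hq' hI, normalize_eq, normalize_eq] at h
  unfold cnt
  exact_mod_cast h

/-- (G') two nonzero ideals whose exponents agree modulo `p` differ by `p`-th powers. -/
theorem exists_mul_pow_eq_mul_pow (p : ℕ) (I₁ I₂ : Ideal A) (h₁ : I₁ ≠ ⊥) (h₂ : I₂ ≠ ⊥)
    (h : ∀ q : Ideal A, q.IsPrime → q ≠ ⊥ → cnt q I₁ ≡ cnt q I₂ [MOD p]) :
    ∃ J₁ J₂ : Ideal A, J₁ ≠ ⊥ ∧ J₂ ≠ ⊥ ∧ I₁ * J₁ ^ p = I₂ * J₂ ^ p := by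
  classical
  set N₁ := normalizedFactors I₁ with hN₁
  set N₂ := normalizedFactors I₂ with hN₂
  set F := (N₁ + N₂).toFinset with hF
  let U : Multiset (Ideal A) := ∑ q ∈ F, ((N₂.count q - N₁.count q) / p) • ({q} : Multiset (Ideal A))
  let V : Multiset (Ideal A) := ∑ q ∈ F, ((N₁.count q - N₂.count q) / p) • ({q} : Multiset (Ideal A))
  have hprime : ∀ q ∈ F, Prime q := by
    intro q hq
    rw [hF, Multiset.mem_toFinset, Multiset.mem_add] at hq
    rcases hq with hq | hq
    · exact prime_of_normalized_factor q hq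
    · exact prime_of_normalized_factor q hq
  have hcountU : ∀ q, U.count q = if q ∈ F then (N₂.count q - N₁.count q) / p else 0 := by
    intro q
    simp only [U, Multiset.count_sum', Multiset.count_nsmul, Multiset.count_singleton]
    simp [Finset.sum_ite_eq]
  have hcountV : ∀ q, V.count q = if q ∈ F then (N₁.count q - N₂.count q) / p else 0 := by
    intro q
    simp only [V, Multiset.count_sum', Multiset.count_nsmul, Multiset.count_singleton]
    simp [Finset.sum_ite_eq]
  have hmemU : ∀ q ∈ U, q ∈ F := by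
    intro q hq
    by_contra hqF
    have := hcountU q
    rw [if_neg hqF] at this
    exact (Multiset.count_eq_zero.mp this) hq
  have hmemV : ∀ q ∈ V, q ∈ F := by
    intro q hq
    by_contra hqF
    have := hcountV q
    rw [if_neg hqF] at this
    exact (Multiset.count_eq_zero.mp this) hq
  have key : N₁ + p • U = N₂ + p • V := by
    ext q
    rw [Multiset.count_add, Multiset.count_add, Multiset.count_nsmul, Multiset.count_nsmul,
      hcountU, hcountV]
    by_cases hq : q ∈ F
    · rw [if_pos hq, if_pos hq]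
      have hpq := hprime q hq
      have hmod := h q (Ideal.isPrime_of_prime hpq) hpq.ne_zero
      have hmod' : N₁.count q ≡ N₂.count q [MOD p] := hmod
      rcases le_total (N₁.count q) (N₂.count q) with hle | hle
      · have hd : p ∣ N₂.count q - N₁.count q := (Nat.modEq_iff_dvd' hle).mp hmod'
        rw [Nat.mul_div_cancel' hd, Nat.sub_eq_zero_of_le hle]
        simp
        omega
      · have hd : p ∣ N₁.count q - N₂.count q := (Nat.modEq_iff_dvd' hle).mp hmod'.symm
        rw [Nat.mul_div_cancel' hd, Nat.sub_eq_zero_of_le hle]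
        simp
        omega
    · rw [if_neg hq, if_neg hq]
      rw [hF, Multiset.mem_toFinset, Multiset.mem_add, not_or] at hq
      rw [Multiset.count_eq_zero.mpr hq.1, Multiset.count_eq_zero.mpr hq.2]
  refine ⟨U.prod, V.prod, ?_, ?_, ?_⟩
  · rw [← Ideal.zero_eq_bot]
    apply Multiset.prod_ne_zero
    intro h0
    exact (hprime 0 (hmemU 0 h0)).ne_zero rfl
  · rw [← Ideal.zero_eq_bot]
    apply Multiset.prod_ne_zero
    intro h0
    exact (hprime 0 (hmemV 0 h0)).ne_zero rfl
  · have e₁ : N₁.prod = I₁ := Ideal.prod_normalizedFactors_eq_self h₁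
    have e₂ : N₂.prod = I₂ := Ideal.prod_normalizedFactors_eq_self h₂
    rw [← e₁, ← e₂, ← Multiset.prod_nsmul, ← Multiset.prod_nsmul, ← Multiset.prod_add,
      ← Multiset.prod_add, key]

/-- every nonzero ideal has a "class inverse". -/
lemma exists_mul_eq_span (J : Ideal A) (hJ : J ≠ ⊥) :
    ∃ (J' : Ideal A) (d : A), J' ≠ ⊥ ∧ d ≠ 0 ∧ J * J' = Ideal.span {d} := by
  obtain ⟨d, hd, hd0⟩ := Submodule.exists_mem_ne_zero_of_ne_bot hJ
  have : J ∣ Ideal.span {d} := by rwa [Ideal.dvd_span_singleton]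
  obtain ⟨J', hJ'⟩ := this
  refine ⟨J', d, ?_, hd0, hJ'.symm⟩
  rintro rfl
  apply hd0
  simpa using hJ'

end Fermat.Agent.S14.Thaine
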