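import Fermat.Agent.S14.Defs

set_option autoImplicit false

open NumberField IsCyclotomicExtension Polynomial

namespace Fermat.Agent.S14.Thaine

/-- `Φ_l(b) = 1` when `b ^ (l-1) = 1`, `b ≠ 1`. -/
lemma eval_cyclotomic_eq_one (l : ℕ) [Fact l.Prime] {F : Type*} [Field F] (b : F) (hb : b ^ (l - 1) = 1) (hb1 : b ≠ 1) :
    eval b (cyclotomic l F) = 1 := by
  have hl : l.Prime := Fact.out
  have h1 : eval b (cyclotomic l F) * (b - 1) = b ^ l - 1 := by
    have := congrArg (eval b) (cyclotomic_prime_mul_X_sub_one F l)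
    simpa using this
  have h2 : b ^ l = b := by
    have : l = (l - 1) + 1 := by have := hl.pos; omega
    rw [this, pow_succ]
    simp [hb]
  rw [h2] at h1
  have h3 : b - 1 ≠ 0 := sub_ne_zero.mpr hb1
  exact mul_right_cancel₀ h3 (by rw [h1, one_mul])

variable (p : ℕ) [Fact p.Prime] (K : Type) [Field K] [NumberField K]
  [IsCyclotomicExtension {p} ℚ K]
variable (l : ℕ) [Fact l.Prime]
variable (M : Type) [Field M] [NumberField M] [Algebra K M] [IsCyclotomicExtension {l} K M]

include p K l M

/-- `K(ζ_l)` is the `pl`-th cyclotomic field. -/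
theorem isCyclotomicExtension_mul (hne : l ≠ p) :
    IsCyclotomicExtension {p * l} ℚ M := by
  have hp : p.Prime := Fact.out
  have hl : l.Prime := Fact.out
  have h1 : IsCyclotomicExtension ({p} ∪ {l}) ℚ M :=
    IsCyclotomicExtension.trans {p} {l} ℚ K M
      (algebraMap K M).injective
  have hζp : IsPrimitiveRoot (algebraMap K M (zeta p ℚ K)) p :=
    (zeta_spec p ℚ K).map_of_injective (algebraMap K M).injective
  have hζl : IsPrimitiveRoot (zeta l K M) l := zeta_spec l K _
  have hcop : Nat.Coprime p l := (Nat.coprime_primes hp hl).mpr hne.symm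
  have hζ : IsPrimitiveRoot (algebraMap K M (zeta p ℚ K) *
      zeta l K M) (p * l) := by
    have ho : orderOf (algebraMap K M (zeta p ℚ K) *
      zeta l K M) = p * l := by
      rw [(Commute.all _ _).orderOf_mul_eq_mul_orderOf_of_coprime, ← hζp.eq_orderOf,
        ← hζl.eq_orderOf]
      rwa [← hζp.eq_orderOf, ← hζl.eq_orderOf]
    rw [← ho]
    exact IsPrimitiveRoot.orderOf _
  have h2 : IsCyclotomicExtension ({p} ∪ {l} ∪ {p * l}) ℚ M :=
    IsCyclotomicExtension.union_of_isPrimitiveRoot _ ℚ _ hζ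
  have e : ({p} ∪ {l} ∪ {p * l} : Set ℕ) = {p * l} ∪ {p} ∪ {l} := by
    ext x; simp; tauto
  rw [e] at h2
  have h3 : IsCyclotomicExtension ({p * l} ∪ {p}) ℚ M := by
    refine (IsCyclotomicExtension.iff_union_of_dvd ℚ M ?_).mpr h2
    exact ⟨p * l, by simp, Nat.mul_ne_zero hp.ne_zero hl.ne_zero, Dvd.intro_left p rfl⟩
  refine (IsCyclotomicExtension.iff_union_of_dvd ℚ M ?_).mpr h3
  exact ⟨p * l, by simp, Nat.mul_ne_zero hp.ne_zero hl.ne_zero, Dvd.intro l rfl⟩

theorem finrank_eq (hne : l ≠ p) : Module.finrank K M = l - 1 := by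
  have hp : p.Prime := Fact.out
  have hl : l.Prime := Fact.out
  have := isCyclotomicExtension_mul p K l M hne
  have : NeZero (p * l) := ⟨Nat.mul_ne_zero hp.ne_zero hl.ne_zero⟩
  have h1 : Module.finrank ℚ M = (p * l).totient :=
    IsCyclotomicExtension.finrank (n := p * l) M
      (cyclotomic.irreducible_rat (NeZero.pos _))
  have h2 : Module.finrank ℚ K = p.totient :=
    IsCyclotomicExtension.finrank (n := p) K (cyclotomic.irreducible_rat hp.pos)
  have h3 := Module.finrank_mul_finrank ℚ K M
  have hcop : Nat.Coprime p l := (Nat.coprime_primes hp hl).mpr hne.symm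
  rw [h1, h2, Nat.totient_mul hcop, Nat.totient_prime hl] at h3
  exact Nat.eq_of_mul_eq_mul_left (Nat.totient_pos.mpr hp.pos) h3

theorem irreducible_cyclotomic (hne : l ≠ p) : Irreducible (cyclotomic l K) := by
  have hl : l.Prime := Fact.out
  have hζ : IsPrimitiveRoot (zeta l K M) l := zeta_spec l K _
  have hdvd : minpoly K (zeta l K M) ∣ cyclotomic l K := by
    apply minpoly.dvd
    simpa [aeval_def, eval₂_eq_eval_map, IsRoot.def] using hζ.isRoot_cyclotomic hl.pos
  have hint : IsIntegral K (zeta l K M) := hζ.isIntegral hl.pos |>.tower_top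
  have hdeg : (minpoly K (zeta l K M)).natDegree = l - 1 := by
    rw [← finrank_eq p K l M hne, (hζ.powerBasis K).finrank, ← (hζ.powerBasis K).natDegree_minpoly]
    simp
  have heq : cyclotomic l K = minpoly K (zeta l K M) := by
    refine eq_of_monic_of_dvd_of_natDegree_le (minpoly.monic hint) (cyclotomic.monic l K) hdvd ?_
    rw [hdeg, natDegree_cyclotomic, Nat.totient_prime hl]
  rw [heq]
  exact minpoly.irreducible hint

theorem norm_one_sub_mul_zeta (hne : l ≠ p) (a : K) (ha : a ^ (l - 1) = 1) (ha1 : a ≠ 1) :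
    Algebra.norm K
      (1 - algebraMap K M a * zeta l K M) = 1 := by
  have hl : l.Prime := Fact.out
  have hirr := irreducible_cyclotomic p K l M hne
  have hζ := zeta_spec l K M
  have ha0 : a ≠ 0 := by
    rintro rfl
    have : l - 1 ≠ 0 := by have := hl.two_le; omega
    simp [this] at ha
  let E := AlgebraicClosure M
  obtain ⟨z, hz⟩ := IsAlgClosed.exists_root _ (degree_cyclotomic_pos l E hl.pos).ne.symm
  apply (algebraMap K E).injective
  let := IsCyclotomicExtension.finiteDimensional {l} K M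
  let := IsCyclotomicExtension.isGalois {l} K M
  rw [Algebra.norm_eq_prod_embeddings]
  have hσ : ∀ σ : M →ₐ[K] E,
      σ (1 - algebraMap K M a * zeta l K M) =
        algebraMap K E a * ((algebraMap K E a)⁻¹ - σ (zeta l K M)) := by
    intro σ
    have h0 : algebraMap K E a ≠ 0 := by simpa using ha0
    rw [map_sub, map_one, map_mul, AlgHom.commutes, mul_sub, mul_inv_cancel₀ h0]
  simp_rw [hσ]
  rw [Finset.prod_mul_distrib, Finset.prod_const, Finset.card_univ, AlgHom.card,
    finrank_eq p K l M hne, ← map_pow, ha, map_one, one_mul]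
  have Hprod : (Finset.univ.prod fun σ : M →ₐ[K] E =>
      (algebraMap K E a)⁻¹ - σ (zeta l K M)) =
      eval (algebraMap K E a)⁻¹ (cyclotomic' l E) := by
    rw [cyclotomic', eval_prod, ← @Finset.prod_attach E E, ← Finset.univ_eq_attach]
    refine Fintype.prod_equiv (hζ.embeddingsEquivPrimitiveRoots E hirr) _ _ fun σ => ?_
    simp
  have : NeZero (l : E) := NeZero.of_faithfulSMul K _ l
  rw [Hprod, cyclotomic', ← cyclotomic_eq_prod_X_sub_primitiveRoots (isRoot_cyclotomic_iff.1 hz)]
  apply eval_cyclotomic_eq_one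
  · rw [inv_pow, ← map_pow, ha, map_one, inv_one]
  · intro h
    apply ha1
    rw [inv_eq_one] at h
    exact (algebraMap K E).injective (by rw [h, map_one])

end Fermat.Agent.S14.Thaine
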