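import Fermat.Agent.S14.Defs

set_option autoImplicit false
set_option linter.unusedSectionVars false

open NumberField IsCyclotomicExtension Polynomial

namespace Fermat.Agent.S14.Thaine

variable (p : ℕ) [Fact p.Prime] (K : Type) [Field K] [NumberField K]
  [IsCyclotomicExtension {p} ℚ K]
variable (l : ℕ) [Fact l.Prime]
variable (M : Type) [Field M] [NumberField M] [Algebra K M] [IsCyclotomicExtension {p * l} ℚ M]

/-- the rational prime below a nonzero prime ideal -/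
lemma exists_prime_liesOver {F : Type} [Field F] [NumberField F] (Q : Ideal (𝓞 F)) [Q.IsPrime]
    (hQ : Q ≠ ⊥) : ∃ r : ℕ, r.Prime ∧ Q.LiesOver (Ideal.span {(r : ℤ)}) ∧
      ∀ d : ℕ, (d : 𝓞 F) ∈ Q ↔ r ∣ d := by
  have : NeZero Q := ⟨hQ⟩
  refine ⟨Ideal.absNorm (Ideal.under ℤ Q), Nat.absNorm_under_prime Q, inferInstance, ?_⟩
  intro d
  have := Int.cast_mem_ideal_iff (I := Q) (d := (d : ℤ))
  rw [Int.cast_natCast, Int.natCast_dvd_natCast] at this
  exact this

lemma ramIdx_tower (Q : Ideal (𝓞 M)) [Q.IsPrime] :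
    Q.ramificationIdx ℤ = (Q.under (𝓞 K)).ramificationIdx ℤ * Q.ramificationIdx (𝓞 K) :=
  Ideal.ramificationIdx_tower (Q.under (𝓞 K)) Q

lemma ramIdx'_eq (Q : Ideal (𝓞 M)) [Q.IsPrime] (hQ : Q ≠ ⊥) :
    (Q.under (𝓞 K)).ramificationIdx' Q = Q.ramificationIdx (𝓞 K) :=
  Ideal.ramificationIdx'_eq_ramificationIdx _ _ (Ideal.under_ne_bot _ hQ)

include p in
/-- primes not above `l` are unramified in `M/K`. -/
theorem ramificationIdx_of_not_mem (Q : Ideal (𝓞 M)) [Q.IsPrime] (hQ : Q ≠ ⊥)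
    (hl : (l : 𝓞 M) ∉ Q) : (Q.under (𝓞 K)).ramificationIdx' Q = 1 := by
  have hp : p.Prime := Fact.out
  have hlp : l.Prime := Fact.out
  rw [ramIdx'_eq K M Q hQ]
  obtain ⟨r, hr, hQr, hmem⟩ := exists_prime_liesOver Q hQ
  have : Fact r.Prime := ⟨hr⟩
  have hrl : r ≠ l := by
    rintro rfl
    exact hl ((hmem r).mpr dvd_rfl)
  have hqr : (Q.under (𝓞 K)).LiesOver (Ideal.span {(r : ℤ)}) :=
    Ideal.LiesOver.tower_bot Q (Q.under (𝓞 K)) (Ideal.span {(r : ℤ)})
  have ht := ramIdx_tower K M Q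
  have hrl' : ¬ r ∣ l := fun h => hrl ((Nat.prime_dvd_prime_iff_eq hr hlp).mp h)
  by_cases hrp : r = p
  · subst hrp
    have h1 : Q.ramificationIdx ℤ = r ^ 0 * (r - 1) :=
      IsCyclotomicExtension.Rat.ramificationIdx_eq (n := r * l) (m := l) (p := r) (k := 0) M Q
        (by ring) hrl'
    have h2 : (Q.under (𝓞 K)).ramificationIdx ℤ = r - 1 :=
      IsCyclotomicExtension.Rat.ramificationIdx_eq_of_prime r K _
    rw [h1, h2, pow_zero, one_mul] at ht
    have h3 : 0 < r - 1 := by have := hr.two_le; omega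
    exact (Nat.eq_of_mul_eq_mul_left h3 (by rw [mul_one]; exact ht)).symm
  · have hrp' : ¬ r ∣ p := fun h => hrp ((Nat.prime_dvd_prime_iff_eq hr hp).mp h)
    have : NeZero (p * l) := ⟨Nat.mul_ne_zero hp.ne_zero hlp.ne_zero⟩
    have h1 : Q.ramificationIdx ℤ = 1 :=
      IsCyclotomicExtension.Rat.ramificationIdx_eq_of_not_dvd (m := p * l) r M Q
        (fun h => (hr.dvd_mul.mp h).elim hrp' hrl')
    rw [h1] at ht
    exact Nat.eq_one_of_mul_eq_one_left ht.symm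

include p in
/-- primes above `l` are totally ramified in `M/K`. -/
theorem ramificationIdx_of_mem (hne : l ≠ p) (Q : Ideal (𝓞 M)) [Q.IsPrime] (hQ : Q ≠ ⊥)
    (hl : (l : 𝓞 M) ∈ Q) : Q.ramificationIdx (𝓞 K) = l - 1 := by
  have hp : p.Prime := Fact.out
  have hlp : l.Prime := Fact.out
  obtain ⟨r, hr, hQr, hmem⟩ := exists_prime_liesOver Q hQ
  have hrl : r = l := (Nat.prime_dvd_prime_iff_eq hr hlp).mp ((hmem l).mp hl)
  subst hrl
  have hqr : (Q.under (𝓞 K)).LiesOver (Ideal.span {(r : ℤ)}) :=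
    Ideal.LiesOver.tower_bot Q (Q.under (𝓞 K)) (Ideal.span {(r : ℤ)})
  have ht := ramIdx_tower K M Q
  have hrp' : ¬ r ∣ p := fun h => hne ((Nat.prime_dvd_prime_iff_eq hr hp).mp h)
  have h1 : Q.ramificationIdx ℤ = r ^ 0 * (r - 1) :=
    IsCyclotomicExtension.Rat.ramificationIdx_eq (n := p * r) (m := p) (p := r) (k := 0) M Q
      (by ring) hrp'
  have : NeZero p := ⟨hp.ne_zero⟩
  have h2 : (Q.under (𝓞 K)).ramificationIdx ℤ = 1 :=
    IsCyclotomicExtension.Rat.ramificationIdx_eq_of_not_dvd (m := p) r K _ hrp'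
  rw [h1, h2, pow_zero, one_mul, one_mul] at ht
  exact ht.symm

end Fermat.Agent.S14.Thaine

namespace Fermat.Agent.S14.Thaine

variable (p : ℕ) [Fact p.Prime] (K : Type) [Field K] [NumberField K]
  [IsCyclotomicExtension {p} ℚ K]
variable (l : ℕ) [Fact l.Prime]
variable (M : Type) [Field M] [NumberField M] [Algebra K M] [IsCyclotomicExtension {p * l} ℚ M]

include p in
/-- above `l`, the whole Galois group is the inertia group. -/
theorem smul_sub_mem_of_mem (hne : l ≠ p) [IsGalois K M] (hfin : Module.finrank K M = l - 1)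
    (Q : Ideal (𝓞 M)) [Q.IsPrime] (hQ : Q ≠ ⊥)
    (hl : (l : 𝓞 M) ∈ Q) (σ : Gal(M/K)) (x : 𝓞 M) : σ • x - x ∈ Q := by
  have := IsGaloisGroup.of_isFractionRing Gal(M/K) (𝓞 K) (𝓞 M) K M
  have h1 := Ideal.card_inertia_eq_ramificationIdxIn (G := Gal(M/K)) (Q.under (𝓞 K)) Q
  rw [Ideal.ramificationIdxIn_eq_ramificationIdx (Q.under (𝓞 K)) Q Gal(M/K),
    ramificationIdx_of_mem p K l M hne Q hQ hl, ← hfin, ← IsGalois.card_aut_eq_finrank] at h1
  have h2 : Q.inertia Gal(M/K) = ⊤ := Subgroup.eq_top_of_card_eq _ h1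
  have h3 : σ ∈ Q.inertia Gal(M/K) := by rw [h2]; trivial
  exact h3 x

end Fermat.Agent.S14.Thaine
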