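import Fermat.Agent.S14.Thaine.Local
import Fermat.Agent.S14.Thaine.Count
import Fermat.Agent.S14.Thaine.Field
import Fermat.Agent.S14.Thaine.Ram

set_option autoImplicit false
set_option linter.unusedSectionVars false

open NumberField IsCyclotomicExtension Polynomial

namespace Fermat.Agent.S14.Thaine

variable (p : ℕ) [Fact p.Prime] (K : Type) [Field K] [NumberField K]
  [IsCyclotomicExtension {p} ℚ K]
variable (l : ℕ) [Fact l.Prime]
variable (M : Type) [Field M] [NumberField M] [Algebra K M] [IsCyclotomicExtension {l} K M]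

/-- `ζ_l` in `𝓞 M` -/
noncomputable def zl : 𝓞 M := (zeta_spec l K M).toInteger

lemma zl_isPrimitiveRoot : IsPrimitiveRoot (zl K l M) l :=
  (zeta_spec l K M).toInteger_isPrimitiveRoot

lemma span_l_eq : Ideal.span {(l : 𝓞 M)} = Ideal.span {zl K l M - 1} ^ (l - 1) := by
  rw [Ideal.span_singleton_pow, Ideal.span_singleton_eq_span_singleton]
  exact (IsCyclotomicExtension.Rat.associated_zeta_sub_one_pow_prime l (zeta_spec l K M)).symm

include p K in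
lemma cnt_l (hne : l ≠ p) (Q : Ideal (𝓞 M)) [Q.IsPrime] (hQ : Q ≠ ⊥) (hl : (l : 𝓞 M) ∈ Q) :
    cnt Q (Ideal.span {(l : 𝓞 M)}) = l - 1 := by
  have hlp : l.Prime := Fact.out
  have := isCyclotomicExtension_mul p K l M hne
  obtain ⟨r, hr, hQr, hmem⟩ := exists_prime_liesOver Q hQ
  have hrl : r = l := (Nat.prime_dvd_prime_iff_eq hr hlp).mp ((hmem l).mp hl)
  subst hrl
  have hp : p.Prime := Fact.out
  have hrp' : ¬ r ∣ p := fun h => hne ((Nat.prime_dvd_prime_iff_eq hr hp).mp h)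
  have h1 : Q.ramificationIdx ℤ = r ^ 0 * (r - 1) :=
    IsCyclotomicExtension.Rat.ramificationIdx_eq (n := p * r) (m := p) (p := r) (k := 0) M Q
      (by ring) hrp'
  have hr0 : Ideal.span {(r : ℤ)} ≠ ⊥ := by
    simpa using hr.ne_zero
  have h2 : (Ideal.span {(r : ℤ)}).ramificationIdx' Q = Q.ramificationIdx ℤ :=
    Ideal.ramificationIdx'_eq_ramificationIdx _ _ hr0
  have h3 := cnt_map (Ideal.span {(r : ℤ)}) hr0 Q hQ (I := Ideal.span {(r : ℤ)}) hr0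
  rw [cnt_prime _ _ hr0, if_pos rfl, h2, h1, Ideal.map_span, Set.image_singleton] at h3
  simpa using h3

include p in
lemma zl_sub_one_mem (hne : l ≠ p) (Q : Ideal (𝓞 M)) [Q.IsPrime] (hQ : Q ≠ ⊥)
    (hl : (l : 𝓞 M) ∈ Q) : zl K l M - 1 ∈ Q ∧ zl K l M - 1 ∉ Q ^ 2 := by
  have hlp : l.Prime := Fact.out
  have h1 := cnt_l p K l M hne Q hQ hl
  rw [span_l_eq K l M, cnt_pow] at h1
  have h2 : cnt Q (Ideal.span {zl K l M - 1}) = 1 := by
    have h3 : 0 < l - 1 := by have := hlp.two_le; omega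
    exact Nat.eq_of_mul_eq_mul_left h3 (by rw [h1, mul_one])
  have h0 : zl K l M - 1 ≠ 0 := by
    intro h
    exact (zl_isPrimitiveRoot K l M).ne_one hlp.one_lt (sub_eq_zero.mp h)
  have h4 := mem_pow_cnt Q hQ h0
  rw [h2] at h4
  simpa using h4

lemma exists_smul_zl (σ : Gal(M/K)) : ∃ s : ℕ, σ • zl K l M = zl K l M ^ s := by
  have hlp : l.Prime := Fact.out
  have h1 : (σ • zl K l M) ^ l = 1 := by
    rw [← smul_pow', (zl_isPrimitiveRoot K l M).pow_eq_one, smul_one]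
  obtain ⟨s, -, hs⟩ := (zl_isPrimitiveRoot K l M).eq_pow_of_pow_eq_one h1
  exact ⟨s, hs.symm⟩

lemma smul_pi_sub_mem (Q : Ideal (𝓞 M)) (hπ : zl K l M - 1 ∈ Q) (σ : Gal(M/K)) (s : ℕ)
    (hs : σ • zl K l M = zl K l M ^ s) :
    σ • (zl K l M - 1) - (s : 𝓞 M) * (zl K l M - 1) ∈ Q ^ 2 := by
  rw [smul_sub, smul_one, hs]
  have h1 : zl K l M ^ s - 1 = (zl K l M - 1) * ∑ i ∈ Finset.range s, zl K l M ^ i := by
    rw [mul_comm]; exact (geom_sum_mul _ _).symm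
  have h2 : (∑ i ∈ Finset.range s, zl K l M ^ i) - (s : 𝓞 M) ∈ Q := by
    have : (∑ i ∈ Finset.range s, zl K l M ^ i) - (s : 𝓞 M) =
        ∑ i ∈ Finset.range s, (zl K l M ^ i - 1) := by
      rw [Finset.sum_sub_distrib]; simp
    rw [this]
    refine Ideal.sum_mem _ fun i _ => ?_
    obtain ⟨w, hw⟩ := sub_dvd_pow_sub_pow (zl K l M) 1 i
    rw [one_pow] at hw
    rw [hw]
    exact Ideal.mul_mem_right _ _ hπ
  have h3 : zl K l M ^ s - 1 - (s : 𝓞 M) * (zl K l M - 1) =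
      (zl K l M - 1) * ((∑ i ∈ Finset.range s, zl K l M ^ i) - (s : 𝓞 M)) := by
    rw [h1]; ring
  rw [h3, pow_two]
  exact Ideal.mul_mem_mul hπ h2

include p in
/-- local analysis at the primes above `l`. -/
theorem local_at_l (hne : l ≠ p) (Q : Ideal (𝓞 M)) [Q.IsPrime] (hQ : Q ≠ ⊥)
    (hl : (l : 𝓞 M) ∈ Q) (σ : Gal(M/K)) (s : ℕ) (hs : σ • zl K l M = zl K l M ^ s)
    (η ε : 𝓞 M) (hε : ε ≠ 0) (h : η * σ • ε = ε) :
    η * (s : 𝓞 M) ^ cnt Q (Ideal.span {ε}) - 1 ∈ Q := by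
  have := isCyclotomicExtension_mul p K l M hne
  have : IsGalois K M := IsCyclotomicExtension.isGalois {l} K M
  obtain ⟨hπ, hπ2⟩ := zl_sub_one_mem p K l M hne Q hQ hl
  obtain ⟨hr, hr'⟩ := mem_pow_cnt Q hQ hε
  exact eta_mul_pow_sub_one_mem Q hQ (MulSemiringAction.toRingHom Gal(M/K) (𝓞 M) σ)
    (fun x => smul_sub_mem_of_mem p K l M hne (finrank_eq p K l M hne) Q hQ hl σ x)
    (zl K l M - 1) (s : 𝓞 M) hπ hπ2 (smul_pi_sub_mem K l M Q hπ σ s hs) η ε h _ hr hr'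

lemma algebraMap_norm_eq_prod [IsGalois K M] (ε : 𝓞 M) :
    algebraMap (𝓞 K) (𝓞 M) (RingOfIntegers.norm K ε) = ∏ σ : Gal(M/K), σ • ε := by
  ext
  rw [RingOfIntegers.coe_algebraMap_norm K ε, Algebra.norm_eq_prod_automorphisms]
  simp only [map_prod]
  rfl

open Pointwise in
lemma span_smul_eq_of_generator (g : Gal(M/K)) (hg : ∀ x, x ∈ Subgroup.zpowers g)
    (η : (𝓞 M)ˣ) (ε : 𝓞 M) (h : (η : 𝓞 M) * g • ε = ε) (σ : Gal(M/K)) :
    Ideal.span {σ • ε} = Ideal.span {ε} := by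
  have key : ∀ τ : Gal(M/K), τ • Ideal.span {ε} = Ideal.span {τ • ε} := by
    intro τ
    rw [Ideal.pointwise_smul_def, Ideal.map_span, Set.image_singleton]
    rfl
  have h1 : g ∈ MulAction.stabilizer Gal(M/K) (Ideal.span {ε}) := by
    rw [MulAction.mem_stabilizer_iff, key, Ideal.span_singleton_eq_span_singleton]
    exact ⟨η, by rw [mul_comm]; exact h⟩
  have h2 : σ ∈ MulAction.stabilizer Gal(M/K) (Ideal.span {ε}) :=
    (Subgroup.zpowers_le.mpr h1) (hg σ)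
  rw [MulAction.mem_stabilizer_iff, key] at h2
  exact h2

include p in
lemma map_span_norm (hne : l ≠ p) (g : Gal(M/K)) (hg : ∀ x, x ∈ Subgroup.zpowers g)
    (η : (𝓞 M)ˣ) (ε : 𝓞 M) (h : (η : 𝓞 M) * g • ε = ε) :
    (Ideal.span {RingOfIntegers.norm K ε}).map (algebraMap (𝓞 K) (𝓞 M)) =
      Ideal.span {ε} ^ (l - 1) := by
  have : IsGalois K M := IsCyclotomicExtension.isGalois {l} K M
  rw [Ideal.map_span, Set.image_singleton, algebraMap_norm_eq_prod, ← Ideal.prod_span_singleton]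
  simp_rw [span_smul_eq_of_generator K M g hg η ε h]
  rw [Finset.prod_const, Finset.card_univ, ← Nat.card_eq_fintype_card,
    IsGalois.card_aut_eq_finrank, finrank_eq p K l M hne]

lemma natCast_mem_iff (q : Ideal (𝓞 K)) (Q : Ideal (𝓞 M)) [Q.LiesOver q] (n : ℕ) :
    (n : 𝓞 K) ∈ q ↔ (n : 𝓞 M) ∈ Q := by
  rw [Ideal.mem_of_liesOver Q q, map_natCast]

include p in
theorem cnt_norm (hne : l ≠ p) (g : Gal(M/K)) (hg : ∀ x, x ∈ Subgroup.zpowers g)
    (η : (𝓞 M)ˣ) (ε : 𝓞 M) (hε : ε ≠ 0) (h : (η : 𝓞 M) * g • ε = ε)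
    (q : Ideal (𝓞 K)) [q.IsPrime] (hq : q ≠ ⊥) (Q : Ideal (𝓞 M)) [Q.IsPrime] [Q.LiesOver q] :
    q.ramificationIdx' Q * cnt q (Ideal.span {RingOfIntegers.norm K ε}) =
      (l - 1) * cnt Q (Ideal.span {ε}) := by
  have hQ : Q ≠ ⊥ := Ideal.ne_bot_of_liesOver_of_ne_bot hq Q
  have hκ : RingOfIntegers.norm K ε ≠ 0 := by
    intro h0
    have h1 : Algebra.norm K (ε : M) = 0 := by
      rw [← RingOfIntegers.coe_norm, h0]; rfl
    rw [Algebra.norm_eq_zero_iff] at h1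
    exact hε (RingOfIntegers.ext h1)
  have hκ' : Ideal.span {RingOfIntegers.norm K ε} ≠ ⊥ := by simpa using hκ
  rw [← cnt_map q hq Q hQ hκ', map_span_norm p K l M hne g hg η ε h, cnt_pow]

end Fermat.Agent.S14.Thaine
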