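import Mathlib

set_option autoImplicit false

namespace Fermat.Agent.S14.Thaine

variable {B : Type*} [CommRing B] [IsDedekindDomain B]

/-- an endomorphism which is trivial modulo `Q` preserves `Q`. -/
lemma tau_mem (Q : Ideal B) (τ : B →+* B) (hτ : ∀ x, τ x - x ∈ Q) {x : B} (hx : x ∈ Q) :
    τ x ∈ Q := by
  have := Q.add_mem (hτ x) hx
  simpa using this

lemma tau_mem_pow (Q : Ideal B) (τ : B →+* B) (hτ : ∀ x, τ x - x ∈ Q) (n : ℕ) {x : B}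
    (hx : x ∈ Q ^ n) : τ x ∈ Q ^ n := by
  have h1 : Q.map τ ≤ Q := by
    rw [Ideal.map_le_iff_le_comap]
    intro y hy
    exact tau_mem Q τ hτ hy
  have h2 : τ x ∈ (Q ^ n).map τ := Ideal.mem_map_of_mem τ hx
  rw [Ideal.map_pow] at h2
  exact Ideal.pow_right_mono h1 n h2

/-- `Q = (π) + Q²` when `π ∈ Q \ Q²`. -/
lemma span_sup_sq (Q : Ideal B) [Q.IsPrime] (hQ : Q ≠ ⊥) (π : B) (hπ : π ∈ Q) (hπ2 : π ∉ Q ^ 2) :
    Ideal.span {π} ⊔ Q ^ 2 = Q := by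
  have h := Ideal.eq_prime_pow_of_succ_lt_of_le (P := Q) (I := Ideal.span {π} ⊔ Q ^ 2) hQ (i := 1)
    ?_ ?_
  · simpa using h
  · refine lt_of_le_of_ne le_sup_right ?_
    intro h
    apply hπ2
    have : π ∈ Ideal.span {π} ⊔ Q ^ 2 := Ideal.mem_sup_left (Ideal.mem_span_singleton_self π)
    rw [← h] at this
    simpa using this
  · rw [pow_one]
    refine sup_le ?_ ?_
    · rwa [Ideal.span_singleton_le_iff_mem]
    · exact Ideal.pow_le_self (by norm_num)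

lemma tau_sub_smul_mem_sq (Q : Ideal B) [Q.IsPrime] (hQ : Q ≠ ⊥) (τ : B →+* B)
    (hτ : ∀ x, τ x - x ∈ Q) (π s : B) (hπ : π ∈ Q) (hπ2 : π ∉ Q ^ 2)
    (hs : τ π - s * π ∈ Q ^ 2) {b : B} (hb : b ∈ Q) : τ b - s * b ∈ Q ^ 2 := by
  rw [← span_sup_sq Q hQ π hπ hπ2] at hb
  obtain ⟨x, hx, y, hy, rfl⟩ := Submodule.mem_sup.mp hb
  obtain ⟨w, rfl⟩ := Ideal.mem_span_singleton'.mp hx
  have e : τ (w * π + y) - s * (w * π + y) =
      τ w * (τ π - s * π) + s * (π * (τ w - w)) + (τ y - s * y) := by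
    simp only [map_add, map_mul]; ring
  rw [e]
  refine Ideal.add_mem _ (Ideal.add_mem _ ?_ ?_) ?_
  · exact Ideal.mul_mem_left _ _ hs
  · refine Ideal.mul_mem_left _ _ ?_
    rw [pow_two]
    exact Ideal.mul_mem_mul hπ (hτ w)
  · exact Ideal.sub_mem _ (tau_mem_pow Q τ hτ 2 hy) (Ideal.mul_mem_left _ _ hy)

/-- (A) `τ` acts on `Q^r/Q^(r+1)` by `s^r`. -/
theorem tau_sub_pow_smul_mem (Q : Ideal B) [Q.IsPrime] (hQ : Q ≠ ⊥) (τ : B →+* B)
    (hτ : ∀ x, τ x - x ∈ Q) (π s : B) (hπ : π ∈ Q) (hπ2 : π ∉ Q ^ 2)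
    (hs : τ π - s * π ∈ Q ^ 2) (r : ℕ) :
    ∀ x ∈ Q ^ r, τ x - s ^ r * x ∈ Q ^ (r + 1) := by
  induction r with
  | zero =>
    intro x _
    simpa using hτ x
  | succ r ih =>
    intro x hx
    rw [pow_succ] at hx
    refine Submodule.mul_induction_on hx ?_ ?_
    · intro a ha b hb
      have e : τ (a * b) - s ^ (r + 1) * (a * b) =
          τ a * (τ b - s * b) + (τ a - s ^ r * a) * (s * b) := by
        simp only [map_mul]; ring
      rw [e]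
      refine Ideal.add_mem _ ?_ ?_
      · have : Q ^ (r + 1 + 1) = Q ^ r * Q ^ 2 := by rw [← pow_add]
        rw [this]
        exact Ideal.mul_mem_mul (tau_mem_pow Q τ hτ r ha)
          (tau_sub_smul_mem_sq Q hQ τ hτ π s hπ hπ2 hs hb)
      · rw [pow_succ Q (r + 1)]
        exact Ideal.mul_mem_mul (ih a ha) (Ideal.mul_mem_left _ _ hb)
    · intro a b ha hb
      have e : τ (a + b) - s ^ (r + 1) * (a + b) =
          (τ a - s ^ (r + 1) * a) + (τ b - s ^ (r + 1) * b) := by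
        simp only [map_add]; ring
      rw [e]
      exact Ideal.add_mem _ ha hb

/-- (B) -/
theorem eta_mul_pow_sub_one_mem (Q : Ideal B) [Q.IsPrime] (hQ : Q ≠ ⊥) (τ : B →+* B)
    (hτ : ∀ x, τ x - x ∈ Q) (π s : B) (hπ : π ∈ Q) (hπ2 : π ∉ Q ^ 2)
    (hs : τ π - s * π ∈ Q ^ 2) (η ε : B) (h : η * τ ε = ε) (r : ℕ)
    (hr : ε ∈ Q ^ r) (hr' : ε ∉ Q ^ (r + 1)) : η * s ^ r - 1 ∈ Q := by
  have h1 := tau_sub_pow_smul_mem Q hQ τ hτ π s hπ hπ2 hs r ε hr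
  have h2 : (η * s ^ r - 1) * ε ∈ Q ^ (r + 1) := by
    have e : (η * s ^ r - 1) * ε = - (η * (τ ε - s ^ r * ε)) := by
      have : η * (τ ε - s ^ r * ε) = ε - η * s ^ r * ε := by
        rw [mul_sub, h]; ring
      rw [this]; ring
    rw [e]
    exact Ideal.neg_mem_iff _ |>.mpr (Ideal.mul_mem_left _ _ h1)
  rcases Ideal.IsPrime.mul_mem_pow Q h2 with h3 | h3
  · exact h3
  · exact absurd h3 hr'

end Fermat.Agent.S14.Thaine
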