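import Fermat.Agent.S14.Thaine.Kappa

set_option autoImplicit false
set_option linter.unusedSectionVars false

open NumberField IsCyclotomicExtension Polynomial

namespace Fermat.Agent.S14.Thaine

variable (p : ℕ) [Fact p.Prime] (K : Type) [Field K] [NumberField K]
  [IsCyclotomicExtension {p} ℚ K]
variable (l : ℕ) [Fact l.Prime]
variable (M : Type) [Field M] [NumberField M] [Algebra K M] [IsCyclotomicExtension {l} K M]

/-- `1 - ζ_p^c ζ_l` -/
noncomputable def xx (c : (ZMod p)ˣ) : 𝓞 M :=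
  1 - algebraMap (𝓞 K) (𝓞 M) (zetaO p K) ^ (c : ZMod p).val * zl K l M

lemma norm_xx (hne : l ≠ p) (hpl : p ∣ l - 1) (c : (ZMod p)ˣ) :
    RingOfIntegers.norm K (xx p K l M c) = 1 := by
  have hp : p.Prime := Fact.out
  ext
  rw [RingOfIntegers.coe_norm]
  have hz : IsPrimitiveRoot ((zetaO p K : 𝓞 K) : K) p := zeta_spec p ℚ K
  have e : ((xx p K l M c : 𝓞 M) : M) =
      1 - algebraMap K M (((zetaO p K : 𝓞 K) : K) ^ (c : ZMod p).val) * zeta l K M := by
    unfold xx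
    simp only [map_sub, map_one, map_mul, map_pow]
    rfl
  rw [e, norm_one_sub_mul_zeta p K l M hne]
  · rfl
  · obtain ⟨k, hk⟩ := hpl
    rw [hk, ← pow_mul, mul_comm, mul_assoc, pow_mul, hz.pow_eq_one, one_pow]
  · have hc0 : 0 < (c : ZMod p).val := by
      rw [Nat.pos_iff_ne_zero, Ne, ZMod.val_eq_zero]
      exact c.ne_zero
    exact hz.pow_ne_one_of_pos_of_lt hc0.ne' (ZMod.val_lt _)

lemma isUnit_xx (hne : l ≠ p) (hpl : p ∣ l - 1) (c : (ZMod p)ˣ) : IsUnit (xx p K l M c) := by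
  have : IsGalois K M := IsCyclotomicExtension.isGalois {l} K M
  rw [← RingOfIntegers.isUnit_norm_of_isGalois K, norm_xx p K l M hne hpl c]
  exact isUnit_one

/-- the unit `ξ = ∏ ((1 - ζ^c ζ_l)/(1 - ζ ζ_l))^{n_c}` -/
noncomputable def xi (hne : l ≠ p) (hpl : p ∣ l - 1) : (𝓞 M)ˣ :=
  ∏ c : (ZMod p)ˣ, ((isUnit_xx p K l M hne hpl c).unit *
    ((isUnit_xx p K l M hne hpl 1).unit)⁻¹) ^ nexp p c

lemma norm_xi (hne : l ≠ p) (hpl : p ∣ l - 1) :
    Algebra.norm K (((xi p K l M hne hpl : (𝓞 M)ˣ) : 𝓞 M) : M) = 1 := by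
  have h1 : ∀ c, Units.map (RingOfIntegers.norm K) (isUnit_xx p K l M hne hpl c).unit = 1 := by
    intro c
    ext1
    simp [norm_xx p K l M hne hpl c]
  have h2 : Units.map (RingOfIntegers.norm K) (xi p K l M hne hpl) = 1 := by
    unfold xi
    simp only [map_prod, map_pow, map_mul, map_inv, h1]
    simp
  have h3 : RingOfIntegers.norm K ((xi p K l M hne hpl : (𝓞 M)ˣ) : 𝓞 M) = 1 := by
    have := congrArg Units.val h2
    simpa using this
  rw [← RingOfIntegers.coe_norm, h3]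
  rfl

lemma xi_sub_Du_mem (hne : l ≠ p) (hpl : p ∣ l - 1) (Q : Ideal (𝓞 M)) (hQ : zl K l M - 1 ∈ Q) :
    ((xi p K l M hne hpl : (𝓞 M)ˣ) : 𝓞 M) - algebraMap (𝓞 K) (𝓞 M) (Du p K : 𝓞 K) ∈ Q := by
  have hp : p.Prime := Fact.out
  have : Fact (1 < p) := ⟨hp.one_lt⟩
  set φ := Ideal.Quotient.mk Q with hφ
  have hzl : φ (zl K l M) = 1 := by
    have : φ (zl K l M - 1) = 0 := Ideal.Quotient.eq_zero_iff_mem.mpr hQ
    rw [map_sub, map_one, sub_eq_zero] at this
    exact this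
  set z := φ (algebraMap (𝓞 K) (𝓞 M) (zetaO p K)) with hz
  have hx : ∀ c, φ (xx p K l M c) = 1 - z ^ (c : ZMod p).val := by
    intro c
    unfold xx
    simp only [map_sub, map_one, map_mul, map_pow, hzl, mul_one, hz]
  have hu : ∀ c, φ (algebraMap (𝓞 K) (𝓞 M) (cycU p K c : 𝓞 K)) =
      ∑ i ∈ Finset.range (c : ZMod p).val, z ^ i := by
    intro c
    have : (cycU p K c : 𝓞 K) = ∑ i ∈ Finset.range (c : ZMod p).val, zetaO p K ^ i :=
      (geomSum_isUnit p K c).unit_spec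
    rw [this]
    simp only [map_sum, map_pow, hz]
  have h1 : ∀ c, Units.map (φ : 𝓞 M →* 𝓞 M ⧸ Q) ((isUnit_xx p K l M hne hpl c).unit *
      ((isUnit_xx p K l M hne hpl 1).unit)⁻¹) =
      Units.map (φ : 𝓞 M →* 𝓞 M ⧸ Q)
        (Units.map (algebraMap (𝓞 K) (𝓞 M) : 𝓞 K →* 𝓞 M) (cycU p K c)) := by
    intro c
    rw [map_mul, map_inv, mul_inv_eq_iff_eq_mul]
    ext1
    simp only [Units.coe_map, Units.val_mul, MonoidHom.coe_coe, IsUnit.unit_spec]
    rw [hx, hx, hu]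
    simp only [Units.val_one, ZMod.val_one, pow_one]
    rw [geom_sum_mul_neg]
  have h2 : Units.map (φ : 𝓞 M →* 𝓞 M ⧸ Q) (xi p K l M hne hpl) =
      Units.map (φ : 𝓞 M →* 𝓞 M ⧸ Q)
        (Units.map (algebraMap (𝓞 K) (𝓞 M) : 𝓞 K →* 𝓞 M) (Du p K)) := by
    unfold xi Du
    simp only [map_prod, map_pow, h1]
  have h3 := congrArg Units.val h2
  simp only [Units.coe_map, MonoidHom.coe_coe] at h3
  rw [← Ideal.Quotient.eq_zero_iff_mem, map_sub, sub_eq_zero]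
  exact h3

end Fermat.Agent.S14.Thaine
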